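import Fermat.Agent.Ribet.H343.GRSurjQ3
import Fermat.Agent.Ribet.H523.Q3Final
import Fermat.Agent.Ribet.H924.EigenLiftThree

/-!
# RIBET row 37, WALL-q: the leaf (Q3) RED is CLOSED, unconditionally (helper343)

Plugs the last leaf GR-SURJ (`H343.grSurjQ3`, adapter of helper937's `H937.grSurj`) into the
proved glue of the (Q3) board (sub-architect helper523) and into EIGEN-LIFT-3 (helper924):

* `q3Good   : H158.WallQ.Q3GoodStatement`   (good levels: `5 ≤ q`, or `q = 3` and `2 ∣ M'`);
* `q3All    : H158.WallQ.Q3Statement`       (ALL levels, `q = 3` with `M'` odd included);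
* `eigenLiftGood`, `eigenLiftStrong`, `eigenLiftThree`, `eigenLift` : the intermediate
  statements `H523.Q3.EigenLiftGoodStatement`, `H924.EigenLiftStrongStatement`,
  `H523.Q3.EigenLiftThreeStatement`, `H523.Q3.EigenLiftStatement`.

No new mathematics: wiring only (heavy closure: S18 + S27 + S37).
-/

set_option autoImplicit false
set_option synthInstance.maxHeartbeats 400000
set_option maxHeartbeats 1000000

noncomputable section

namespace Fermat.Agent.Ribet.H343

open Fermat.Agent.Ribet.H523.Q3 Fermat.Agent.Ribet.H158.WallQ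

/-- **EIGEN-LIFT at good levels**, unconditional. -/
theorem eigenLiftGood : EigenLiftGoodStatement :=
  eigenLiftGood_of_grSurj grSurjQ3

/-- **EIGEN-LIFT at good levels, strong form** (shape of helper924), unconditional. -/
theorem eigenLiftStrong : Fermat.Agent.Ribet.H924.EigenLiftStrongStatement := by
  intro p q M _ hp _ hq hq2 hqp hqM hgood A hA S a h hh
  obtain ⟨z, f, r, c, u, -, hpz, hK, hred, hc, hu, hr, heig⟩ :=
    eigenLiftGoodStrong_of_grSurj grSurjQ3 p q M hp hq hq2 hqp hqM hgood A hA S a h hh
  refine ⟨S ∪ (q * M * p).primeFactors, z, f, c, u, Finset.subset_union_left, hpz, heig, hK,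
    hc, hu, ?_⟩
  rw [← hr]
  exact hred

/-- **EIGEN-LIFT-3** (`q = 3`, `M'` odd), unconditional. -/
theorem eigenLiftThree : EigenLiftThreeStatement :=
  Fermat.Agent.Ribet.H924.eigenLiftThree_of eigenLiftStrong

/-- **EIGEN-LIFT**, all levels, unconditional. -/
theorem eigenLift : EigenLiftStatement :=
  eigenLift_of_cases eigenLiftGood eigenLiftThree

/-- **(Q3) RED at good levels**, unconditional. -/
theorem q3Good : Q3GoodStatement :=
  q3Good_of_grSurj grSurjQ3

/-- **(Q3) RED at ALL levels**, unconditional. -/
theorem q3All : Q3Statement :=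
  q3_of redEigenQ eigenLift

end Fermat.Agent.Ribet.H343
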