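import Fermat.Agent.Ribet.H343.DetCyc
import Fermat.Prelude.Def_FreyPackage_DetCyclotomic

/-!
# RIBET, piece DETF (helper343): `det (Frob_q | E[p]) = q`

* `detFrob : Spec.DetFrobStatement` — the determinant of every Frobenius element at every
  prime `q ≠ p` (good or bad) on `E[p]` of the Frey curve is `q`;
* `frey_galoisRepDetEqCyclotomic` — the Prelude predicate `GaloisRepDetEqCyclotomic` for the Frey
  curve (`det ρ_{E,p} = modularCyclotomicCharacter`);
* `frey_detCyclotomicOnInertiaAtP` — the Prelude predicate `DetCyclotomicOnInertiaAtP`.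
-/

set_option autoImplicit false
set_option linter.style.haveILetI false

open WeierstrassCurve WeierstrassCurve.Affine WeierstrassCurve.Affine.Point

namespace Fermat.Agent.Ribet.H343

/-- **DETF.** -/
theorem detFrob : Fermat.Agent.Ribet.Spec.DetFrobStatement := by
  intro P q hq hqp A hA φ hφ
  have hNv : A.valuation ((P.p : ℕ) : Qb) = 1 :=
    Fermat.Agent.S55.Bridge.val_prime_eq_one (A := A) hA hq P.pp hqp
  exact frey_det_eq_of_apply_root P φ q
    (fun ζ hζ => Fermat.Agent.S55.H414.IsFrobeniusAt_apply_root hφ P.hp0 hNv hζ)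

/-- The cyclotomic character `chi` agrees with Mathlib's `modularCyclotomicCharacter`. -/
theorem chi_eq_modularCyclotomicCharacter (P : FreyPackage) (σ : GQ) :
    chi P σ = modularCyclotomicCharacter Qb P.card_rootsOfUnity_algebraicClosure
      (σ : Qb ≃+* Qb) := by
  apply Units.ext
  apply modularCyclotomicCharacter.unique
  intro t ht
  have ht' : (t : Qb) ^ P.p = 1 := by
    have := (mem_rootsOfUnity _ _).1 ht
    rw [← Units.val_pow_eq_pow_val, this, Units.val_one]
  exact apply_root_eq_pow_chi P σ t ht'

/-- **`det ρ_{E,p}` is the mod-`p` cyclotomic character** (Prelude shape). -/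
theorem frey_galoisRepDetEqCyclotomic (P : FreyPackage) :
    GaloisRepDetEqCyclotomic ℚ P.freyCurve P.p P.card_rootsOfUnity_algebraicClosure := by
  intro σ
  rw [← chi_eq_modularCyclotomicCharacter]
  apply Units.ext
  rw [galoisRepDet_apply, LinearEquiv.coe_det, ← frey_det_eq_chi]
  rfl

/-- The Prelude predicate `DetCyclotomicOnInertiaAtP` for every Frey package. -/
theorem frey_detCyclotomicOnInertiaAtP (P : FreyPackage) : P.DetCyclotomicOnInertiaAtP :=
  fun _ _ σ _ => frey_galoisRepDetEqCyclotomic P σ

end Fermat.Agent.Ribet.H343
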