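import Fermat.Agent.Ribet.Spec
import Fermat.Agent.S13
import Fermat.Agent.S13.H164.Frey
import Fermat.Agent.Lib.Cheb.FrobeniusDivision
import Fermat.Agent.Lib.Frob.Glue
import Fermat.Agent.Lib.Frob.A1.Main
import Fermat.Agent.Lib.Frob.A2.Main
import Fermat.Agent.S41.H701.FinrankTorsion
import Fermat.Agent.S41.H701.LinAlg2
import Fermat.Agent.S55.H414.CycloPow

/-!
# RIBET, piece DETF/NMT core (helper343): `det ρ_{E,p} = cyclotomic` for the Frey curve

No Weil pairing.  For the Frey curve `E` of a Frey package `P` and `p = P.p`: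

* `frey_det_eq_cycloPow`: `det (σ | E[p]) = χ_p(σ)` for every `σ ∈ G_ℚ`, where `χ_p` is the mod-`p`
  cyclotomic character (`Fermat.Agent.S55.H414.cycloPow`);
* `frey_det_eq_of_apply_root`: if `σ ζ = ζ ^ c` for all `p`-th roots of unity `ζ`, then
  `det (σ | E[p]) = c`.

Route: `Lib/Cheb` Tier 1 (Frobenius division) + `Lib/Frob` (Frobenius relation
`τ² - a_ℓ τ + ℓ = 0` on `E[p]` at good `ℓ ≥ 5`) + Cayley–Hamilton in dimension two for the
non-scalar elements; a non-scalar element exists for every Frey package (otherwise `S13` gives a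
cofixed line, hence trivial action, excluded by `T7`); the determinant character and the
cyclotomic character agree on the non-scalar elements, hence everywhere.
-/

set_option autoImplicit false
set_option linter.style.haveILetI false

open WeierstrassCurve WeierstrassCurve.Affine WeierstrassCurve.Affine.Point

namespace Fermat.Agent.Ribet.H343

/-- `ℚ̄`. -/
abbrev Qb : Type := AlgebraicClosure ℚ

/-- `Gal(ℚ̄/ℚ)`. -/
abbrev GQ : Type := Qb ≃ₐ[ℚ] Qb

/-- `E[p](ℚ̄)` of the Frey curve. -/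
abbrev Vp (P : FreyPackage) : Type :=
  Submodule.torsionBy ℤ (P.freyCurve⁄Qb).Point P.p

/-- The mod-`p` representation of the Frey curve, with values in `End`. -/
noncomputable abbrev rho (P : FreyPackage) : GQ →* Module.End (ZMod P.p) (Vp P) :=
  galoisRepModuleEnd (S := ℚ) (K := Qb) P.freyCurve P.p

theorem rho_apply (P : FreyPackage) (σ : GQ) (x : Vp P) : rho P σ x = σ • x := rfl

instance instNeZeroFreyP (P : FreyPackage) : NeZero P.p := ⟨P.hp0⟩

theorem isElliptic_frey (P : FreyPackage) : (P.freyCurve⁄Qb).IsElliptic := by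
  constructor
  rw [isUnit_iff_ne_zero]
  exact Fermat.Agent.S13.H164.frey_baseChange_Δ_ne_zero P

theorem finrank_Vp (P : FreyPackage) : Module.finrank (ZMod P.p) (Vp P) = 2 := by
  haveI : Fact P.p.Prime := ⟨P.pp⟩
  haveI := isElliptic_frey P
  exact Fermat.Agent.S41.H701.finrank_torsion_eq_two_h701 (K := Qb) P.freyCurve P.p

theorem finite_Vp (P : FreyPackage) : Finite (Vp P) := by
  haveI := isElliptic_frey P
  exact Fermat.Agent.S41.H701.finite_torsion_prelude_h701 (K := Qb) P.freyCurve P.p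
    P.pp.one_le

/-! ### The Frobenius relation on `E[p]` -/

/-- The landed Frobenius relation (`Lib/Frob`). -/
theorem frobRelation_main : Fermat.Agent.Lib.Frob.FrobRelation :=
  Fermat.Agent.Lib.Frob.frobRelation_of_parts Fermat.Agent.Lib.Frob.frobRelationFin
    Fermat.Agent.Lib.Frob.reductionData

/-- Transport of the Frobenius relation to a curve over `ℚ` equal to the base change of an
integral model. -/
theorem frob_rel_of_eq_map (W : WeierstrassCurve ℤ) (E : WeierstrassCurve ℚ)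
    (hE : E = W.map (Int.castRingHom ℚ)) (ℓ : ℕ) (hℓ : ℓ.Prime) (h5 : 5 ≤ ℓ)
    (hgood : W.IsGoodPrimeFor ℓ) (A : ValuationSubring Qb) (τ : GQ) (hA : A.LiesOverPrime ℓ)
    (hτ : A.IsFrobeniusAt τ ℓ) (n : ℕ) (hn : 0 < n) (hℓn : ¬ ℓ ∣ n) (Q : (E⁄Qb).Point)
    (hQ : n • Q = 0) :
    τ • τ • Q - W.apOfModel ℓ • τ • Q + (ℓ : ℤ) • Q = 0 := by
  subst hE
  exact frobRelation_main W ℓ hℓ h5 hgood A τ hA hτ n hn hℓn Q hQ

theorem freyCurveInt_Δ_ne_zero (P : FreyPackage) : P.freyCurveInt.Δ ≠ 0 := by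
  intro h
  have h1 := Fermat.Agent.S13.H164.freyCurve_Δ_ne_zero P
  rw [Fermat.Agent.S13.H164.freyCurve_eq_map, WeierstrassCurve.map_Δ, h] at h1
  exact h1 (map_zero _)

/-- The Frobenius relation on `E[p]` of the Frey curve, pointwise. -/
theorem frey_frob_rel (P : FreyPackage) (ℓ : ℕ) (hℓ : ℓ.Prime) (h5 : 5 ≤ ℓ)
    (hgood : P.freyCurveInt.IsGoodPrimeFor ℓ) (hℓp : ℓ ≠ P.p)
    (A : ValuationSubring Qb) (τ : GQ) (hA : A.LiesOverPrime ℓ) (hτ : A.IsFrobeniusAt τ ℓ)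
    (x : Vp P) :
    τ • τ • x - P.freyCurveInt.apOfModel ℓ • τ • x + (ℓ : ℤ) • x = 0 := by
  have hx : P.p • (x : (P.freyCurve⁄Qb).Point) = 0 := by
    have := x.2
    rw [Submodule.mem_torsionBy_iff] at this
    rw [← this]
    exact (natCast_zsmul _ _).symm
  have hℓn : ¬ ℓ ∣ P.p := fun h => hℓp ((Nat.prime_dvd_prime_iff_eq hℓ P.pp).1 h)
  have key := frob_rel_of_eq_map P.freyCurveInt P.freyCurve
    (Fermat.Agent.S13.H164.freyCurve_eq_map P) ℓ hℓ h5 hgood A τ hA hτ P.p P.hppos hℓn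
    (x : (P.freyCurve⁄Qb).Point) hx
  apply Subtype.ext
  exact key

/-- The Frobenius relation on `E[p]` of the Frey curve, in `End (E[p])`. -/
theorem frey_frob_rel_end (P : FreyPackage) (ℓ : ℕ) (hℓ : ℓ.Prime) (h5 : 5 ≤ ℓ)
    (hgood : P.freyCurveInt.IsGoodPrimeFor ℓ) (hℓp : ℓ ≠ P.p)
    (A : ValuationSubring Qb) (τ : GQ) (hA : A.LiesOverPrime ℓ) (hτ : A.IsFrobeniusAt τ ℓ) :
    rho P τ * rho P τ - ((P.freyCurveInt.apOfModel ℓ : ℤ) : ZMod P.p) • rho P τ
      + ((ℓ : ℕ) : ZMod P.p) • (1 : Module.End (ZMod P.p) (Vp P)) = 0 := by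
  apply LinearMap.ext
  intro x
  have key := frey_frob_rel P ℓ hℓ h5 hgood hℓp A τ hA hτ x
  simp only [LinearMap.add_apply, LinearMap.sub_apply, Module.End.mul_apply, LinearMap.smul_apply,
    Module.End.one_apply, rho_apply, LinearMap.zero_apply]
  rw [Int.cast_smul_eq_zsmul, Nat.cast_smul_eq_nsmul]
  rw [← key, natCast_zsmul]

/-! ### Determinant and cyclotomic character at a good Frobenius -/

/-- `IsScalar f`: the endomorphism `f` is a scalar. -/
def IsScalarEnd (P : FreyPackage) (f : Module.End (ZMod P.p) (Vp P)) : Prop :=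
  ∃ c : ZMod P.p, f = c • (1 : Module.End (ZMod P.p) (Vp P))

/-- A non-scalar Frobenius at a good prime `ℓ ≥ 5`, `ℓ ≠ p`, has determinant `ℓ`. -/
theorem det_rho_frob (P : FreyPackage) (ℓ : ℕ) (hℓ : ℓ.Prime) (h5 : 5 ≤ ℓ)
    (hgood : P.freyCurveInt.IsGoodPrimeFor ℓ) (hℓp : ℓ ≠ P.p)
    (A : ValuationSubring Qb) (τ : GQ) (hA : A.LiesOverPrime ℓ) (hτ : A.IsFrobeniusAt τ ℓ)
    (hns : ¬ IsScalarEnd P (rho P τ)) :
    LinearMap.det (rho P τ) = ((ℓ : ℕ) : ZMod P.p) := by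
  haveI : Fact P.p.Prime := ⟨P.pp⟩
  exact Fermat.Agent.S41.H701.det_eq_of_quadratic_h701 (finrank_Vp P) (rho P τ) _ _
    (frey_frob_rel_end P ℓ hℓ h5 hgood hℓp A τ hA hτ) (fun s hs => hns ⟨s, hs⟩)

/-- The mod-`p` cyclotomic character. -/
noncomputable abbrev chi (P : FreyPackage) : GQ →* (ZMod P.p)ˣ :=
  Fermat.Agent.S55.H414.cycloPow P.p

/-- A Frobenius at `ℓ ≠ p` has cyclotomic character `ℓ`. -/
theorem chi_frob (P : FreyPackage) (ℓ : ℕ) (hℓ : ℓ.Prime) (hℓp : ℓ ≠ P.p)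
    (A : ValuationSubring Qb) (τ : GQ) (hA : A.LiesOverPrime ℓ) (hτ : A.IsFrobeniusAt τ ℓ) :
    ((chi P τ : (ZMod P.p)ˣ) : ZMod P.p) = ((ℓ : ℕ) : ZMod P.p) := by
  have hNv : A.valuation ((P.p : ℕ) : Qb) = 1 :=
    Fermat.Agent.S55.Bridge.val_prime_eq_one (A := A) hA hℓ P.pp hℓp
  have hζ : τ (Fermat.Agent.S55.H414.zetaBar P.p) = Fermat.Agent.S55.H414.zetaBar P.p ^ ℓ :=
    Fermat.Agent.S55.H414.IsFrobeniusAt_apply_root hτ P.hp0 hNv
      (Fermat.Agent.S55.H414.zetaBar_spec P.p).pow_eq_one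
  exact Fermat.Agent.S55.H414.coe_cycloPow_of_apply_eq_pow P.p τ ℓ hζ

/-- If `σ ζ = ζ ^ c` for all `p`-th roots of unity then `χ(σ) = c`. -/
theorem chi_eq_of_apply_root (P : FreyPackage) (σ : GQ) (c : ℕ)
    (h : ∀ ζ : Qb, ζ ^ P.p = 1 → σ ζ = ζ ^ c) :
    ((chi P σ : (ZMod P.p)ˣ) : ZMod P.p) = (c : ZMod P.p) :=
  Fermat.Agent.S55.H414.coe_cycloPow_of_apply_eq_pow P.p σ c
    (h _ (Fermat.Agent.S55.H414.zetaBar_spec P.p).pow_eq_one)

/-- `σ ζ = ζ ^ χ(σ)` for every `p`-th root of unity `ζ`. -/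
theorem apply_root_eq_pow_chi (P : FreyPackage) (σ : GQ) (ζ : Qb) (hζ : ζ ^ P.p = 1) :
    σ ζ = ζ ^ ((chi P σ : (ZMod P.p)ˣ) : ZMod P.p).val := by
  obtain ⟨i, -, rfl⟩ := (Fermat.Agent.S55.H414.zetaBar_spec P.p).eq_pow_of_pow_eq_one hζ
  rw [map_pow, Fermat.Agent.S55.H414.cycloPow_spec, ← pow_mul, ← pow_mul, mul_comm]

/-! ### A finite extension through which `ρ` and `χ` factor -/

theorem exists_field_rho_chi (P : FreyPackage) :
    ∃ E : IntermediateField ℚ Qb, FiniteDimensional ℚ E ∧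
      ∀ σ₁ σ₂ : GQ, (∀ x ∈ E, σ₁ x = σ₂ x) → rho P σ₁ = rho P σ₂ ∧ chi P σ₁ = chi P σ₂ := by
  classical
  obtain ⟨s, hs⟩ := Fermat.Agent.S13.Skel.exists_finset_fix P (finite_Vp P)
  let T : Set Qb := (↑(insert (Fermat.Agent.S55.H414.zetaBar P.p) s) : Set Qb)
  haveI : Algebra.IsAlgebraic ℚ Qb := AlgebraicClosure.isAlgebraic ℚ
  haveI : Algebra.IsIntegral ℚ Qb := Algebra.IsAlgebraic.isIntegral
  refine ⟨IntermediateField.adjoin ℚ T, ?_, ?_⟩
  · exact IntermediateField.finiteDimensional_adjoin (fun x _ => Algebra.IsIntegral.isIntegral x)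
  · intro σ₁ σ₂ h
    have hfix : ∀ x ∈ T, (σ₂⁻¹ * σ₁) x = x := by
      intro x hx
      have h1 := h x (IntermediateField.subset_adjoin ℚ T hx)
      rw [AlgEquiv.mul_apply, h1]
      exact σ₂.symm_apply_apply x
    have hV : ∀ v : Vp P, (σ₂⁻¹ * σ₁) • v = v :=
      hs _ (fun x hx => hfix x (by
        show x ∈ (↑(insert (Fermat.Agent.S55.H414.zetaBar P.p) s) : Set Qb)
        exact Finset.mem_coe.2 (Finset.mem_insert_of_mem hx)))
    have hζ : (σ₂⁻¹ * σ₁) (Fermat.Agent.S55.H414.zetaBar P.p)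
        = Fermat.Agent.S55.H414.zetaBar P.p :=
      hfix _ (by
        show _ ∈ (↑(insert (Fermat.Agent.S55.H414.zetaBar P.p) s) : Set Qb)
        exact Finset.mem_coe.2 (Finset.mem_insert_self _ _))
    constructor
    · apply LinearMap.ext
      intro v
      rw [rho_apply, rho_apply]
      have h2 : σ₂ • ((σ₂⁻¹ * σ₁) • v) = σ₂ • v := by rw [hV v]
      rw [← h2, mul_smul, smul_inv_smul]
    · have h1 : chi P (σ₂⁻¹ * σ₁) = 1 := by
        rw [Fermat.Agent.S55.H414.cycloPow_eq_iff]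
        rw [hζ]
        have : ((1 : (ZMod P.p)ˣ) : ZMod P.p).val = 1 := by
          rw [Units.val_one]
          haveI : Fact (1 < P.p) := ⟨P.pp.one_lt⟩
          exact ZMod.val_one P.p
        rw [this, pow_one]
      rw [map_mul, map_inv, inv_mul_eq_one] at h1
      exact h1.symm

/-! ### A non-scalar element exists -/

theorem nontrivial_Vp (P : FreyPackage) : Nontrivial (Vp P) := by
  haveI : Fact P.p.Prime := ⟨P.pp⟩
  apply Module.nontrivial_of_finrank_pos (R := ZMod P.p)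
  rw [finrank_Vp P]
  norm_num

/-- **NONSC**: the image of `ρ_{E,p}` for a Frey curve contains a non-scalar element. -/
theorem exists_not_isScalarEnd (P : FreyPackage) : ∃ σ₀ : GQ, ¬ IsScalarEnd P (rho P σ₀) := by
  haveI : Fact P.p.Prime := ⟨P.pp⟩
  haveI := nontrivial_Vp P
  haveI := finite_Vp P
  haveI : Module.Finite (ZMod P.p) (Vp P) := Module.Finite.of_finite
  by_contra hcon
  push Not at hcon
  obtain ⟨v, hv⟩ := exists_ne (0 : Vp P)
  -- the line spanned by `v` is stable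
  have hstable : IsGaloisStable (K := Qb) ℚ (Submodule.span (ZMod P.p) {v}) := by
    intro σ x hx
    obtain ⟨c, hc⟩ := hcon σ
    have : σ • x = c • x := by
      rw [← rho_apply, hc]
      rfl
    rw [this]
    exact Submodule.smul_mem _ _ hx
  have hbot : Submodule.span (ZMod P.p) {v} ≠ ⊥ := by
    intro h
    exact hv ((Submodule.span_singleton_eq_bot).1 h)
  have htop : Submodule.span (ZMod P.p) {v} ≠ ⊤ := by
    intro h
    have h1 : Module.finrank (ZMod P.p) (Submodule.span (ZMod P.p) {v}) = 1 :=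
      finrank_span_singleton hv
    rw [h, finrank_top, finrank_Vp P] at h1
    norm_num at h1
  have hred : ¬ GaloisRepIsIrreducible (K := Qb) ℚ P.freyCurve P.p := by
    rintro ⟨-, hirr⟩
    rcases hirr _ hstable with h | h
    · exact hbot h
    · exact htop h
  obtain ⟨N, -, -, hNtop, hcof⟩ := Fermat.Agent.S13.result P hred
  obtain ⟨x, hx⟩ : ∃ x : Vp P, x ∉ N := by
    by_contra hall
    push Not at hall
    exact hNtop ((Submodule.eq_top_iff').2 hall)
  have htriv : ∀ σ : GQ, ∀ y : Vp P, σ • y = y := by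
    intro σ y
    obtain ⟨c, hc⟩ := hcon σ
    have hact : ∀ z : Vp P, σ • z = c • z := by
      intro z
      rw [← rho_apply, hc]
      rfl
    have hc1 : c = 1 := by
      by_contra hne
      have h1 := hcof σ x
      rw [hact x] at h1
      have h2 : c • x - x = (c - 1) • x := by rw [sub_smul, one_smul]
      rw [h2] at h1
      have h3 : (c - 1)⁻¹ • ((c - 1) • x) ∈ N := Submodule.smul_mem _ _ h1
      rw [smul_smul, inv_mul_cancel₀ (sub_ne_zero.2 hne), one_smul] at h3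
      exact hx h3
    rw [hact y, hc1, one_smul]
  exact hv (Fermat.Agent.S13.H13.frey_T7 P v (fun σ => htriv σ v))

/-! ### `det ρ = χ` -/

theorem isUnit_of_isScalarEnd_rho (P : FreyPackage) (σ : GQ) (c : ZMod P.p)
    (hc : rho P σ = c • (1 : Module.End (ZMod P.p) (Vp P))) : c ≠ 0 := by
  haveI := nontrivial_Vp P
  intro h0
  have h1 : rho P σ * rho P σ⁻¹ = 1 := by
    rw [← map_mul, mul_inv_cancel, map_one]
  rw [hc, h0, zero_smul, zero_mul] at h1
  exact zero_ne_one h1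

/-- `det ρ(σ) = χ(σ)` when `ρ(σ)` is not a scalar. -/
theorem det_eq_chi_of_not_scalar (P : FreyPackage) (σ : GQ)
    (hns : ¬ IsScalarEnd P (rho P σ)) :
    LinearMap.det (rho P σ) = ((chi P σ : (ZMod P.p)ˣ) : ZMod P.p) := by
  classical
  obtain ⟨E, hE, hfac⟩ := exists_field_rho_chi P
  obtain ⟨ℓ, A, τ, k, j, hℓ, hℓS, hA, hτ, -, -, hj⟩ :=
    Fermat.Agent.Lib.Cheb.frobeniusDivision E hE σ
      (insert 2 (insert 3 (insert P.p P.freyCurveInt.Δ.natAbs.primeFactors)))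
  simp only [Finset.mem_insert, not_or] at hℓS
  obtain ⟨hℓ2, hℓ3, hℓp, hℓΔ⟩ := hℓS
  have h5 : 5 ≤ ℓ := by
    have h2 := hℓ.two_le
    by_contra hlt
    push Not at hlt
    have h4 : ℓ ≠ 4 := by
      rintro rfl
      exact absurd hℓ (by norm_num)
    omega
  have hgood : P.freyCurveInt.IsGoodPrimeFor ℓ := by
    intro hdvd
    apply hℓΔ
    rw [Nat.mem_primeFactors]
    refine ⟨hℓ, Int.natCast_dvd.1 hdvd, ?_⟩
    exact Int.natAbs_ne_zero.2 (freyCurveInt_Δ_ne_zero P)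
  obtain ⟨hρ, hχ⟩ := hfac (τ ^ j) σ hj
  have hρ' : rho P σ = rho P τ ^ j := by rw [← hρ, map_pow]
  have hχ' : chi P σ = chi P τ ^ j := by rw [← hχ, map_pow]
  have hnsτ : ¬ IsScalarEnd P (rho P τ) := by
    rintro ⟨c, hc⟩
    apply hns
    refine ⟨c ^ j, ?_⟩
    rw [hρ', hc, smul_pow, one_pow]
  have hdet := det_rho_frob P ℓ hℓ h5 hgood hℓp A τ hA hτ hnsτ
  have hchi := chi_frob P ℓ hℓ hℓp A τ hA hτ
  rw [hρ', hχ', map_pow, hdet, Units.val_pow_eq_pow_val, hchi]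

/-- **`det ρ_{E,p} = χ_p`** for the Frey curve (no Weil pairing). -/
theorem frey_det_eq_chi (P : FreyPackage) (σ : GQ) :
    LinearMap.det (rho P σ) = ((chi P σ : (ZMod P.p)ˣ) : ZMod P.p) := by
  haveI : Fact P.p.Prime := ⟨P.pp⟩
  by_cases hs : IsScalarEnd P (rho P σ)
  · obtain ⟨σ₀, hσ₀⟩ := exists_not_isScalarEnd P
    obtain ⟨c, hc⟩ := hs
    have hc0 := isUnit_of_isScalarEnd_rho P σ c hc
    have hns : ¬ IsScalarEnd P (rho P (σ * σ₀)) := by
      rintro ⟨d, hd⟩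
      apply hσ₀
      refine ⟨c⁻¹ * d, ?_⟩
      rw [map_mul, hc, smul_mul_assoc, one_mul] at hd
      rw [mul_smul, ← hd, smul_smul, inv_mul_cancel₀ hc0, one_smul]
    have h1 := det_eq_chi_of_not_scalar P (σ * σ₀) hns
    have h2 := det_eq_chi_of_not_scalar P σ₀ hσ₀
    rw [map_mul, map_mul, map_mul, Units.val_mul, h2] at h1
    exact mul_right_cancel₀ (Units.ne_zero _) h1
  · exact det_eq_chi_of_not_scalar P σ hs

/-- If `σ ζ = ζ ^ c` for every `p`-th root of unity `ζ`, then `det (σ | E[p]) = c`. -/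
theorem frey_det_eq_of_apply_root (P : FreyPackage) (σ : GQ) (c : ℕ)
    (h : ∀ ζ : Qb, ζ ^ P.p = 1 → σ ζ = ζ ^ c) :
    LinearMap.det (rho P σ) = (c : ZMod P.p) := by
  rw [frey_det_eq_chi, chi_eq_of_apply_root P σ c h]

end Fermat.Agent.Ribet.H343
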