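import Fermat.Agent.Ribet.H937.GRSurj
import Fermat.Agent.Ribet.H523.Q3Spec

/-!
# RIBET / WALL-q (Q3), leaf GR-SURJ, VERBATIM (helper343)

`grSurjQ3 : H523.Q3.GRSurjStatement` — the frozen leaf GR-SURJ of the (Q3) board
`Ribet/H523/Q3Spec.lean` (sub-architect helper523), consumed by
`H523.Q3.eigenLiftGood_of : GRSurj → KumRed → KronField → EigenLiftGood`.

It is the landed `H937.grSurj` (helper937: S18 injectivity + the torsion count of row S27 in
every characteristic + equal genus) at `m = p`, at the good level `5 ≤ q ∨ 2 ∣ M`, `q` odd.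
Also `grSurjQ3_pow` (torsion order `p ^ n`) and `goodLevel_of_odd_h343`.
-/

set_option autoImplicit false
set_option synthInstance.maxHeartbeats 400000

noncomputable section

open AlgebraicCurve ModularCurve IsLocalRing

namespace Fermat.Agent.Ribet.H343

/-- An odd prime `q` with `5 ≤ q ∨ 2 ∣ M` is a good level for `M`. -/
theorem goodLevel_of_odd_h343 {q M : ℕ} (hq : q.Prime) (hq2 : q ≠ 2) (h : 5 ≤ q ∨ 2 ∣ M) :
    Fermat.Agent.S37.Core.GoodLevel M q := by
  rcases Fermat.Agent.S37.Core.prime_cases hq with h2 | h3 | h5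
  · exact absurd h2 hq2
  · rcases h with h | h
    · omega
    · exact Or.inr (Or.inl ⟨h3, h⟩)
  · exact Or.inl h5

/-- **GR-SURJ**, the frozen leaf of the (Q3) board, VERBATIM. -/
theorem grSurjQ3 : Fermat.Agent.Ribet.H523.Q3.GRSurjStatement := by
  intro p q M _ hp hq hq2 hqp hqM hgood A hA y hy
  haveI : Fact q.Prime := ⟨hq⟩
  refine Fermat.Agent.Ribet.H937.grSurj M hqM (goodLevel_of_odd_h343 hq hq2 hgood) A hA p ?_ y hy
  intro hdvd
  exact hqp ((Nat.prime_dvd_prime_iff_eq hq hp).1 hdvd)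

/-- **GR-SURJ** for torsion of order `p ^ n` (same hypotheses). -/
theorem grSurjQ3_pow (p n q M : ℕ) [NeZero M] (hp : p.Prime) (hq : q.Prime) (hq2 : q ≠ 2)
    (hqp : q ≠ p) (hqM : ¬ q ∣ M) (hgood : 5 ≤ q ∨ 2 ∣ M)
    (A : ValuationSubring (AlgebraicClosure ℚ)) (hA : A.LiesOverPrime q)
    (y : JZeroC (ResidueField A) M) (hy : p ^ n • y = 0) :
    ∃ z : JZero M, p ^ n • z = 0 ∧ reductionModL A M z = y := by
  haveI : Fact q.Prime := ⟨hq⟩
  refine Fermat.Agent.Ribet.H937.grSurj M hqM (goodLevel_of_odd_h343 hq hq2 hgood) A hA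
    (p ^ n) ?_ y hy
  intro hdvd
  exact hqp ((Nat.prime_dvd_prime_iff_eq hq hp).1 (hq.dvd_of_dvd_pow hdvd))

end Fermat.Agent.Ribet.H343
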