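import Fermat.Agent.Ribet.H343.DetCyc

/-!
# RIBET, piece NMT (helper343): `E[p]` of the Frey curve is not of multiplicative type at `p`

`notMultiplicativeType : Spec.NotMultiplicativeTypeStatement`.

If the inertia group of a place `A` over `p` acted on all of `E[p]` through the cyclotomic scalar,
then `det = χ²` on inertia; but `det = χ` (`frey_det_eq_chi`), so `χ` would be trivial on the
inertia group of `A`.  As `χ` is unramified outside `p`, Minkowski (`S13/H175`) would make `χ`
trivial on `G_ℚ`, i.e. `ζ_p ∈ ℚ`, which is absurd for `p ≥ 3`.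
-/

set_option autoImplicit false
set_option linter.style.haveILetI false

open WeierstrassCurve WeierstrassCurve.Affine WeierstrassCurve.Affine.Point

namespace Fermat.Agent.Ribet.H343

/-- The mod-`p` cyclotomic character is not trivial (`p ≥ 3`). -/
theorem exists_chi_ne_one (P : FreyPackage) : ∃ σ : GQ, chi P σ ≠ 1 := by
  by_contra hcon
  push Not at hcon
  haveI := Fermat.Agent.S54.isGalois_algebraicClosure_rat
  have hζ := Fermat.Agent.S55.H414.zetaBar_spec P.p
  have hfix : ∀ σ : GQ, σ (Fermat.Agent.S55.H414.zetaBar P.p) = Fermat.Agent.S55.H414.zetaBar P.p := by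
    intro σ
    have h1 := apply_root_eq_pow_chi P σ _ hζ.pow_eq_one
    rw [hcon σ, Units.val_one] at h1
    haveI : Fact (1 < P.p) := ⟨P.pp.one_lt⟩
    rw [ZMod.val_one, pow_one] at h1
    exact h1
  obtain ⟨r, hr⟩ := (InfiniteGalois.mem_range_algebraMap_iff_fixed
    (k := ℚ) (K := Qb) (Fermat.Agent.S55.H414.zetaBar P.p)).2 hfix
  have hrp : r ^ P.p = 1 := by
    apply (algebraMap ℚ Qb).injective
    rw [map_pow, hr, hζ.pow_eq_one, map_one]
  have hr1 : r = 1 := by
    have hodd : Odd P.p := P.hp_odd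
    have := hodd.strictMono_pow (R := ℚ)
    apply this.injective
    simp only
    rw [hrp, one_pow]
  rw [hr1, map_one] at hr
  have h1 : IsPrimitiveRoot (1 : Qb) P.p := hr ▸ hζ
  have := IsPrimitiveRoot.unique h1 IsPrimitiveRoot.one
  exact P.pp.one_lt.ne' this

/-- **NMT.** -/
theorem notMultiplicativeType : Fermat.Agent.Ribet.Spec.NotMultiplicativeTypeStatement := by
  intro P A hA H
  haveI : Fact P.p.Prime := ⟨P.pp⟩
  -- `χ` is trivial on the inertia group of `A`
  have hI : ∀ σ ∈ A.inertiaSubgroupIn ℚ, chi P σ = 1 := by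
    intro σ hσ
    have hroot : ∀ ζ : Qb, ζ ^ P.p = 1 →
        σ ζ = ζ ^ ((chi P σ : (ZMod P.p)ˣ) : ZMod P.p).val := apply_root_eq_pow_chi P σ
    have hsc := H σ hσ _ hroot
    have hc : ((((chi P σ : (ZMod P.p)ˣ) : ZMod P.p).val : ℕ) : ZMod P.p)
        = ((chi P σ : (ZMod P.p)ˣ) : ZMod P.p) := ZMod.natCast_zmod_val _
    have hrho : rho P σ = ((chi P σ : (ZMod P.p)ˣ) : ZMod P.p) •
        (1 : Module.End (ZMod P.p) (Vp P)) := by
      apply LinearMap.ext
      intro x
      rw [rho_apply, hsc x, LinearMap.smul_apply, Module.End.one_apply, ← hc,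
        Nat.cast_smul_eq_nsmul, hc]
    have hdet : LinearMap.det (rho P σ) = ((chi P σ : (ZMod P.p)ˣ) : ZMod P.p) ^ 2 := by
      rw [hrho, LinearMap.det_smul, finrank_Vp P, map_one, mul_one]
    rw [frey_det_eq_chi] at hdet
    have hu : ((chi P σ : (ZMod P.p)ˣ) : ZMod P.p) ≠ 0 := Units.ne_zero _
    have h1 : ((chi P σ : (ZMod P.p)ˣ) : ZMod P.p) = 1 := by
      have h2 : ((chi P σ : (ZMod P.p)ˣ) : ZMod P.p) * 1
          = ((chi P σ : (ZMod P.p)ˣ) : ZMod P.p) * ((chi P σ : (ZMod P.p)ˣ) : ZMod P.p) := by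
        rw [mul_one, ← sq]
        exact hdet
      exact (mul_left_cancel₀ hu h2).symm
    exact Units.ext h1
  -- Minkowski
  have hall : ∀ σ : GQ, chi P σ = 1 := by
    refine Fermat.Agent.S13.H175.minkowski_character (chi P) ?_ ?_
    · refine ⟨{Fermat.Agent.S55.H414.zetaBar P.p}, fun σ hσ => ?_⟩
      rw [Fermat.Agent.S55.H414.cycloPow_eq_iff, hσ _ (Finset.mem_singleton_self _),
        Units.val_one]
      haveI : Fact (1 < P.p) := ⟨P.pp.one_lt⟩
      rw [ZMod.val_one, pow_one]
    · intro q hq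
      by_cases hqp : q = P.p
      · subst hqp
        exact ⟨A, hA, hI⟩
      · obtain ⟨A', hA'⟩ := Fermat.Agent.S54.exists_valuationSubring_liesOver q hq
        refine ⟨A', hA', fun σ hσ => ?_⟩
        have hNv : A'.valuation ((P.p : ℕ) : Qb) = 1 :=
          Fermat.Agent.S55.Bridge.val_prime_eq_one (A := A') hA' hq P.pp hqp
        have hmem := Fermat.Agent.S55.H414.inertia_le_fixingSubgroup_cycloLevel P.p A' hNv hσ
        rw [← Fermat.Agent.S55.H414.ker_cycloPow] at hmem
        exact hmem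
  obtain ⟨σ, hσ⟩ := exists_chi_ne_one P
  exact hσ (hall σ)

end Fermat.Agent.Ribet.H343
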