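import Fermat.Agent.Ribet.H343.DetCyc

/-!
# RIBET, piece DIM (helper343): `E[p]` of the Frey curve has rank two over `𝔽_p`

`torsionRank : Spec.TorsionRankStatement`, from the landed count `#E[n] = n²`
(`Fermat.Agent.S41.H701`).
-/

set_option autoImplicit false

namespace Fermat.Agent.Ribet.H343

/-- **DIM.** -/
theorem torsionRank : Fermat.Agent.Ribet.Spec.TorsionRankStatement :=
  fun P => finrank_Vp P

end Fermat.Agent.Ribet.H343
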